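import Mathlib

/-!
# S36 engine, leaf DESC (owner helper756) — abstract part

`poincareDescent` : an abstract "multiplicative Hilbert 90 with finite orbits".

Let `K` be a field, `act : G → K ≃+* K` a multiplicative family of automorphisms, and
`ℓ : K →*₀ K` an equivariant multiplicative "leading coefficient" such that the only `m`-th root
of unity `x` with `ℓ x = 1` is `1`.  If `f ≠ 0` has a finite orbit and `act σ f = h_σ ^ m * f`
with `ℓ h_σ = 1` for every `σ`, then there is `b ≠ 0` such that `b ^ m * f` is fixed by all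
`act σ`.  (Proof: the normalised `h_σ` only depends on `act σ f`, it is a cocycle, and a
Poincaré sum `∑_{a ∈ orbit} h_a a ^ k` is nonzero for some `k` by Vandermonde.)
-/

set_option autoImplicit false

namespace Fermat.Agent.S36.H756

section Abstract

variable {K : Type*} [Field K] {G : Type*} [Mul G]

/-- Uniqueness of normalised `m`-th roots. -/
theorem normalised_root_unique (ℓ : K →*₀ K) (m : ℕ)
    (huniq : ∀ x : K, x ^ m = 1 → ℓ x = 1 → x = 1) {f : K} (hf : f ≠ 0)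
    {h h' : K} (hh : ℓ h = 1) (hh' : ℓ h' = 1) (e : h ^ m * f = h' ^ m * f) : h = h' := by
  have h'0 : h' ≠ 0 := by
    rintro rfl
    rw [map_zero] at hh'
    exact zero_ne_one hh'
  have e1 : h ^ m = h' ^ m := mul_right_cancel₀ hf e
  have e2 : (h / h') ^ m = 1 := by
    rw [div_pow, e1, div_self (pow_ne_zero m h'0)]
  have e3 : ℓ (h / h') = 1 := by
    rw [map_div₀, hh, hh', div_one]
  have e4 := huniq _ e2 e3
  rwa [div_eq_one_iff_eq h'0] at e4

/-- Abstract Poincaré-series descent, case `m`-th roots are rigid. -/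
theorem poincareDescent_rigid [Nonempty G]
    (act : G → K ≃+* K) (hmul : ∀ σ τ x, act (σ * τ) x = act σ (act τ x))
    (ℓ : K →*₀ K) (hℓ : ∀ σ x, ℓ (act σ x) = act σ (ℓ x))
    (m : ℕ) (huniq : ∀ x : K, x ^ m = 1 → ℓ x = 1 → x = 1)
    (f : K) (hf : f ≠ 0)
    (hfin : (Set.range fun σ : G => act σ f).Finite)
    (hcoc : ∀ σ : G, ∃ h : K, ℓ h = 1 ∧ act σ f = h ^ m * f) :
    ∃ b : K, b ≠ 0 ∧ ∀ σ : G, act σ (b ^ m * f) = b ^ m * f := by
  classical
  -- the orbit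
  set A : Finset K := hfin.toFinset with hA
  have memA : ∀ a, a ∈ A ↔ ∃ σ, act σ f = a := by
    intro a
    rw [hA, Set.Finite.mem_toFinset]
    rfl
  have Ane : A.Nonempty := by
    obtain ⟨σ⟩ := ‹Nonempty G›
    exact ⟨act σ f, (memA _).2 ⟨σ, rfl⟩⟩
  have stab : ∀ σ, ∀ a ∈ A, act σ a ∈ A := by
    intro σ a ha
    obtain ⟨τ, rfl⟩ := (memA a).1 ha
    exact (memA _).2 ⟨σ * τ, hmul σ τ f⟩
  -- the normalised root attached to a point of the orbit
  have exH : ∀ a ∈ A, ∃ h, ℓ h = 1 ∧ a = h ^ m * f := by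
    intro a ha
    obtain ⟨τ, rfl⟩ := (memA a).1 ha
    exact hcoc τ
  let H : K → K := fun a => if ha : ∃ h, ℓ h = 1 ∧ a = h ^ m * f then ha.choose else 0
  have hH : ∀ a ∈ A, ℓ (H a) = 1 ∧ a = H a ^ m * f := by
    intro a ha
    have hex := exH a ha
    simp only [H, dif_pos hex]
    exact hex.choose_spec
  have hH0 : ∀ a ∈ A, H a ≠ 0 := by
    intro a ha h0
    have := (hH a ha).1
    rw [h0, map_zero] at this
    exact zero_ne_one this
  -- the cocycle relation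
  have coc : ∀ σ h, ℓ h = 1 → act σ f = h ^ m * f →
      ∀ a ∈ A, H (act σ a) = h * act σ (H a) := by
    intro σ h hh hσ a ha
    obtain ⟨h1, h2⟩ := hH a ha
    obtain ⟨h3, h4⟩ := hH _ (stab σ a ha)
    refine normalised_root_unique ℓ m huniq hf h3 ?_ ?_
    · rw [map_mul, hh, hℓ, h1, map_one, one_mul]
    · have e : (h * act σ (H a)) ^ m * f = act σ a := by
        calc (h * act σ (H a)) ^ m * f = act σ (H a) ^ m * (h ^ m * f) := by ring
          _ = act σ (H a ^ m * f) := by rw [← hσ, map_mul, map_pow]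
          _ = act σ a := by rw [← h2]
      rw [e, ← h4]
  -- `act σ` permutes the orbit
  have himg : ∀ σ, A.image (act σ) = A := by
    intro σ
    refine Finset.eq_of_subset_of_card_le (Finset.image_subset_iff.2 (stab σ)) ?_
    rw [Finset.card_image_of_injective _ (act σ).injective]
  -- Poincaré sums
  let B : ℕ → K := fun k => ∑ a ∈ A, H a * a ^ k
  have actB : ∀ σ h, ℓ h = 1 → act σ f = h ^ m * f → ∀ k, h * act σ (B k) = B k := by
    intro σ h hh hσ k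
    simp only [B]
    rw [map_sum, Finset.mul_sum]
    conv_rhs => rw [← himg σ]
    rw [Finset.sum_image (fun x _ y _ hxy => (act σ).injective hxy)]
    refine Finset.sum_congr rfl fun a ha => ?_
    rw [coc σ h hh hσ a ha, map_mul, map_pow, mul_assoc]
  -- some Poincaré sum does not vanish
  have exk : ∃ k, B k ≠ 0 := by
    by_contra hcon
    push Not at hcon
    let e := A.equivFin
    have key := Matrix.eq_zero_of_forall_pow_sum_mul_pow_eq_zero (R := K) (n := A.card)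
      (f := fun i => ((e.symm i : A) : K)) (v := fun i => H ((e.symm i : A) : K))
      (fun i j hij => e.symm.injective (Subtype.ext hij))
      (by
        intro i
        have h1 : (∑ j, H ((e.symm j : A) : K) * ((e.symm j : A) : K) ^ (i : ℕ))
            = ∑ a : A, H (a : K) * (a : K) ^ (i : ℕ) :=
          Equiv.sum_comp e.symm (fun a : A => H (a : K) * (a : K) ^ (i : ℕ))
        rw [h1, Finset.sum_coe_sort A (fun a => H a * a ^ (i : ℕ))]
        exact hcon i)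
    obtain ⟨a, ha⟩ := Ane
    have := congrFun key (e ⟨a, ha⟩)
    simp only [Equiv.symm_apply_apply, Pi.zero_apply] at this
    exact hH0 a ha this
  obtain ⟨k, hk⟩ := exk
  refine ⟨B k, hk, fun σ => ?_⟩
  obtain ⟨h, hh, hσ⟩ := hcoc σ
  have h0 : h ≠ 0 := by
    rintro rfl
    rw [map_zero] at hh
    exact zero_ne_one hh
  have e1 : act σ (B k) = h⁻¹ * B k := by
    rw [eq_inv_mul_iff_mul_eq₀ h0]
    exact actB σ h hh hσ k
  rw [map_mul, map_pow, e1, hσ, mul_pow, inv_pow]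
  field_simp

/-- Abstract Poincaré-series descent (the rigidity hypothesis is only needed for `m > 0`). -/
theorem poincareDescent [Nonempty G]
    (act : G → K ≃+* K) (hmul : ∀ σ τ x, act (σ * τ) x = act σ (act τ x))
    (ℓ : K →*₀ K) (hℓ : ∀ σ x, ℓ (act σ x) = act σ (ℓ x))
    (m : ℕ) (huniq : 0 < m → ∀ x : K, x ^ m = 1 → ℓ x = 1 → x = 1)
    (f : K) (hf : f ≠ 0)
    (hfin : (Set.range fun σ : G => act σ f).Finite)
    (hcoc : ∀ σ : G, ∃ h : K, ℓ h = 1 ∧ act σ f = h ^ m * f) :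
    ∃ b : K, b ≠ 0 ∧ ∀ σ : G, act σ (b ^ m * f) = b ^ m * f := by
  rcases Nat.eq_zero_or_pos m with rfl | hm
  · refine ⟨1, one_ne_zero, fun σ => ?_⟩
    obtain ⟨h, -, e⟩ := hcoc σ
    simpa using e
  · exact poincareDescent_rigid act hmul ℓ hℓ m (huniq hm) f hf hfin hcoc

/-- Normalisation of a Kummer cocycle: if `act₁ f = c * h ^ m * f` with a "constant" `c`
(`ℓ c = c`), then for the normalised `f₁ = (ℓ f)⁻¹ * f`, `h₁ = (ℓ h)⁻¹ * h` one has
`act₁ f₁ = h₁ ^ m * f₁`. -/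
theorem normalise_cocycle (act₁ : K ≃+* K) (ℓ : K →*₀ K)
    (hℓ : ∀ x, ℓ (act₁ x) = act₁ (ℓ x)) (hidem : ∀ x, ℓ (ℓ x) = ℓ x)
    (hℓ0 : ∀ x, x ≠ 0 → ℓ x ≠ 0) (m : ℕ) {f c h : K} (hf : f ≠ 0) (hc : ℓ c = c) (hh : h ≠ 0)
    (e : act₁ f = c * h ^ m * f) :
    act₁ ((ℓ f)⁻¹ * f) = ((ℓ h)⁻¹ * h) ^ m * ((ℓ f)⁻¹ * f) := by
  have hA : ℓ f ≠ 0 := hℓ0 f hf
  have hB : ℓ h ≠ 0 := hℓ0 h hh
  have hA' : act₁ (ℓ f) ≠ 0 := by simpa using hA
  obtain ⟨u, hu⟩ : ∃ u : K, u = (act₁ (ℓ f))⁻¹ * c * (ℓ h) ^ m * ℓ f := ⟨_, rfl⟩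
  have e1 : act₁ ((ℓ f)⁻¹ * f) = u * (((ℓ h)⁻¹ * h) ^ m * ((ℓ f)⁻¹ * f)) := by
    rw [map_mul, map_inv₀, e, hu, mul_pow, inv_pow]
    have hBm : ℓ h ^ m ≠ 0 := pow_ne_zero m hB
    field_simp
  have hlu : ℓ u = u := by
    rw [hu, map_mul, map_mul, map_mul, map_pow, map_inv₀, hℓ, hidem, hidem, hc]
  have e2 : ℓ (act₁ ((ℓ f)⁻¹ * f)) = 1 := by
    rw [hℓ, map_mul, map_inv₀, hidem, inv_mul_cancel₀ hA, map_one]
  have e3 : u = 1 := by
    rw [e1, map_mul, map_mul, map_pow, map_mul, map_inv₀, hidem, inv_mul_cancel₀ hB,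
      one_pow, one_mul, map_mul, map_inv₀, hidem, inv_mul_cancel₀ hA, mul_one, hlu] at e2
    exact e2
  rw [e1, e3, one_mul]

/-- Abstract descent, un-normalised form: if `act σ f ∈ (constants) · (m-th powers) · f` for all
`σ`, then `(ℓ f)⁻¹ * b ^ m * f` is fixed for a suitable `b ≠ 0`. -/
theorem poincareDescent' [Nonempty G]
    (act : G → K ≃+* K) (hmul : ∀ σ τ x, act (σ * τ) x = act σ (act τ x))
    (ℓ : K →*₀ K) (hℓ : ∀ σ x, ℓ (act σ x) = act σ (ℓ x)) (hidem : ∀ x, ℓ (ℓ x) = ℓ x)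
    (hℓ0 : ∀ x, x ≠ 0 → ℓ x ≠ 0)
    (m : ℕ) (huniq : 0 < m → ∀ x : K, x ^ m = 1 → ℓ x = 1 → x = 1)
    (hfin : ∀ x : K, (Set.range fun σ : G => act σ x).Finite)
    (f : K) (hf : f ≠ 0)
    (hcoc : ∀ σ : G, ∃ c h : K, ℓ c = c ∧ h ≠ 0 ∧ act σ f = c * h ^ m * f) :
    ∃ b : K, b ≠ 0 ∧ ∀ σ : G, act σ ((ℓ f)⁻¹ * b ^ m * f) = (ℓ f)⁻¹ * b ^ m * f := by
  have hA : ℓ f ≠ 0 := hℓ0 f hf
  have hf₁ : (ℓ f)⁻¹ * f ≠ 0 := mul_ne_zero (inv_ne_zero hA) hf
  obtain ⟨b, hb, hfix⟩ := poincareDescent act hmul ℓ hℓ m huniq ((ℓ f)⁻¹ * f) hf₁ (hfin _)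
    (fun σ => by
      obtain ⟨c, h, hc, hh, e⟩ := hcoc σ
      refine ⟨(ℓ h)⁻¹ * h, ?_, normalise_cocycle (act σ) ℓ (hℓ σ) hidem hℓ0 m hf hc hh e⟩
      rw [map_mul, map_inv₀, hidem, inv_mul_cancel₀ (hℓ0 h hh)])
  refine ⟨b, hb, fun σ => ?_⟩
  have e : (ℓ f)⁻¹ * b ^ m * f = b ^ m * ((ℓ f)⁻¹ * f) := by ring
  rw [e]
  exact hfix σ

end Abstract

end Fermat.Agent.S36.H756
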