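import Mathlib
import Fermat.Prelude.Def_ModularCurve_ArithmeticGalois
import Fermat.Agent.S18.H602.Descent
import Fermat.Agent.S36.H756.DescAbs

/-!
# S36 engine, leaf DESC (owner helper756) — concrete part

`Q̄ = AlgebraicClosure ℚ`, `F₀ ⊆ ℚ((q))`, `K = laurentBaseChange Q̄ F₀ ⊆ Q̄((q))`,
`act τ = arithmeticRingAut F₀ τ` (coefficientwise Galois action).

* `lcK F₀ : K →*₀ K` : the leading coefficient, as a constant of `K`.
* `orbit_finite` : every element of `K` has a finite orbit under `Gal(Q̄/ℚ)`.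
* `eq_one_of_pow_eq_one` : an `m`-th root of unity of `K` with leading coefficient `1` is `1`.
* `fixed_of_pow_fixed` (**T3**) : if `h ^ m` is fixed by `τ` and the leading coefficient of `h`
  is fixed by `τ`, then `h` is fixed by `τ`.
* `exists_fixed_rep` (**T1**) : if `f ≠ 0` and `τ f ∈ Q̄ˣ · Kˣᵐ · f` for all `τ` in a subgroup
  `G`, then `a · b ^ m · f` is `G`-fixed for suitable `a ∈ Q̄ˣ`, `b ∈ Kˣ`.
-/

set_option autoImplicit false

noncomputable section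

namespace Fermat.Agent.S36.H756

open ModularCurve HahnSeries IntermediateField

local notation "Q̄" => AlgebraicClosure ℚ

/-! ## 1. Leading coefficients and `coeffMap` -/

section LeadingCoeff

variable {R S : Type*} [CommRing R] [CommRing S]

theorem orderTop_coeffMap (φ : R →+* S) (hφ : Function.Injective φ) (x : LaurentSeries R) :
    (coeffMap φ x).orderTop = x.orderTop := by
  refine eq_of_forall_le_iff fun i => ?_
  rw [HahnSeries.le_orderTop_iff_forall, HahnSeries.le_orderTop_iff_forall]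
  refine forall_congr' fun j => imp_congr_right fun _ => ?_
  rw [coeffMap_coeff, map_eq_zero_iff φ hφ]

theorem leadingCoeff_coeffMap (φ : R →+* S) (hφ : Function.Injective φ) (x : LaurentSeries R) :
    (coeffMap φ x).leadingCoeff = φ x.leadingCoeff := by
  unfold HahnSeries.leadingCoeff
  rw [orderTop_coeffMap φ hφ]
  cases x.orderTop with
  | top => simp
  | coe n => simp

end LeadingCoeff

/-! ## 2. The leading coefficient on `K = laurentBaseChange Q̄ F₀` -/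

section LcK

variable (F₀ : IntermediateField ℚ (LaurentSeries ℚ))

/-- The leading coefficient of an element of `K`, as a constant of `K`. -/
def lcK : laurentBaseChange Q̄ F₀ →*₀ laurentBaseChange Q̄ F₀ where
  toFun x := algebraMap Q̄ (laurentBaseChange Q̄ F₀) (x : LaurentSeries Q̄).leadingCoeff
  map_zero' := by simp
  map_one' := by
    show algebraMap Q̄ (laurentBaseChange Q̄ F₀) (1 : LaurentSeries Q̄).leadingCoeff = 1
    rw [HahnSeries.leadingCoeff_one, map_one]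
  map_mul' x y := by
    show algebraMap Q̄ (laurentBaseChange Q̄ F₀)
        ((x : LaurentSeries Q̄) * (y : LaurentSeries Q̄)).leadingCoeff = _
    rw [HahnSeries.leadingCoeff_mul, map_mul]

variable {F₀}

theorem lcK_apply (x : laurentBaseChange Q̄ F₀) :
    lcK F₀ x = algebraMap Q̄ (laurentBaseChange Q̄ F₀) (x : LaurentSeries Q̄).leadingCoeff :=
  rfl

theorem coe_algebraMap_K (c : Q̄) :
    ((algebraMap Q̄ (laurentBaseChange Q̄ F₀) c : laurentBaseChange Q̄ F₀) : LaurentSeries Q̄)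
      = HahnSeries.single 0 c := by
  rw [← algebraMap_laurentSeries_eq_single]
  rfl

theorem lcK_algebraMap (c : Q̄) :
    lcK F₀ (algebraMap Q̄ (laurentBaseChange Q̄ F₀) c)
      = algebraMap Q̄ (laurentBaseChange Q̄ F₀) c := by
  rw [lcK_apply, coe_algebraMap_K, HahnSeries.leadingCoeff_of_single]

theorem lcK_lcK (x : laurentBaseChange Q̄ F₀) : lcK F₀ (lcK F₀ x) = lcK F₀ x :=
  lcK_algebraMap _

theorem lcK_ne_zero {x : laurentBaseChange Q̄ F₀} (hx : x ≠ 0) : lcK F₀ x ≠ 0 := by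
  rw [lcK_apply]
  have h1 : (x : LaurentSeries Q̄) ≠ 0 := fun h => hx (Subtype.ext h)
  have h2 : (x : LaurentSeries Q̄).leadingCoeff ≠ 0 := HahnSeries.leadingCoeff_ne_zero.2 h1
  simpa using h2

theorem lcK_act (τ : Q̄ ≃ₐ[ℚ] Q̄) (x : laurentBaseChange Q̄ F₀) :
    lcK F₀ (arithmeticRingAut F₀ τ x) = arithmeticRingAut F₀ τ (lcK F₀ x) := by
  rw [lcK_apply, lcK_apply, arithmeticRingAut_algebraMap, coe_arithmeticRingAut_apply,
    leadingCoeff_coeffMap _ τ.injective]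
  rfl

theorem act_mul (σ τ : Q̄ ≃ₐ[ℚ] Q̄) (x : laurentBaseChange Q̄ F₀) :
    arithmeticRingAut F₀ (σ * τ) x = arithmeticRingAut F₀ σ (arithmeticRingAut F₀ τ x) := by
  apply Subtype.ext
  show coeffMap ((σ * τ : Q̄ ≃ₐ[ℚ] Q̄) : Q̄ →+* Q̄) (x : LaurentSeries Q̄)
      = coeffMap (σ : Q̄ →+* Q̄) (coeffMap (τ : Q̄ →+* Q̄) (x : LaurentSeries Q̄))
  rw [coeffMap_coeffMap]
  exact coeffMap_congr (RingHom.ext fun _ => rfl) _

/-- A constant of `K` whose image... : an element of `K` algebraic over `Q̄` is a constant. -/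
theorem mem_range_of_isIntegral {x : laurentBaseChange Q̄ F₀} (hx : IsIntegral Q̄ x) :
    ∃ c : Q̄, algebraMap Q̄ (laurentBaseChange Q̄ F₀) c = x := by
  have h1 : Irreducible (minpoly Q̄ x) := minpoly.irreducible hx
  have h2 := IsAlgClosed.degree_eq_one_of_irreducible Q̄ h1
  obtain ⟨c, hc⟩ := minpoly.mem_range_of_degree_eq_one Q̄ x h2
  exact ⟨c, hc⟩

/-- An `m`-th root of unity of `K` with leading coefficient `1` is `1`. -/
theorem eq_one_of_pow_eq_one {m : ℕ} (hm : 0 < m) (x : laurentBaseChange Q̄ F₀)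
    (hx : x ^ m = 1) (hl : lcK F₀ x = 1) : x = 1 := by
  have hint : IsIntegral Q̄ x := by
    refine ⟨Polynomial.X ^ m - 1, Polynomial.monic_X_pow_sub_C (1 : Q̄) hm.ne', ?_⟩
    simp [hx]
  obtain ⟨c, rfl⟩ := mem_range_of_isIntegral hint
  rw [lcK_algebraMap] at hl
  exact hl

end LcK

/-! ## 3. Finiteness of orbits -/

section Orbit

variable {F₀ : IntermediateField ℚ (LaurentSeries ℚ)}

theorem orbit_finite_series {x : LaurentSeries Q̄} (hx : x ∈ laurentBaseChange Q̄ F₀) :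
    (Set.range fun τ : Q̄ ≃ₐ[ℚ] Q̄ => coeffMap (τ : Q̄ →+* Q̄) x).Finite := by
  obtain ⟨E, hE, y, -, rfl⟩ := Fermat.Agent.S18.H602.exists_finite_descent hx
  have hfin : Finite (E →ₐ[ℚ] Q̄) := inferInstance
  refine (Set.finite_range fun ψ : E →ₐ[ℚ] Q̄ => coeffMap (ψ : E →+* Q̄) y).subset ?_
  rintro _ ⟨τ, rfl⟩
  refine ⟨(τ : Q̄ →ₐ[ℚ] Q̄).comp E.val, ?_⟩
  show coeffMap _ y = coeffMap (τ : Q̄ →+* Q̄) (coeffMap (algebraMap E Q̄) y)
  rw [coeffMap_coeffMap]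
  exact coeffMap_congr (RingHom.ext fun _ => rfl) _

theorem orbit_finite (x : laurentBaseChange Q̄ F₀) :
    (Set.range fun τ : Q̄ ≃ₐ[ℚ] Q̄ => arithmeticRingAut F₀ τ x).Finite := by
  have h := orbit_finite_series x.2
  refine Set.Finite.subset (h.preimage (Subtype.val_injective.injOn)) ?_
  rintro _ ⟨τ, rfl⟩
  exact ⟨τ, rfl⟩

theorem orbit_finite_subgroup (G : Subgroup (Q̄ ≃ₐ[ℚ] Q̄)) (x : laurentBaseChange Q̄ F₀) :
    (Set.range fun τ : G => arithmeticRingAut F₀ (τ : Q̄ ≃ₐ[ℚ] Q̄) x).Finite := by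
  refine (orbit_finite x).subset ?_
  rintro _ ⟨τ, rfl⟩
  exact ⟨τ, rfl⟩

end Orbit

/-! ## 4. The descent theorems -/

section Descent

variable {F₀ : IntermediateField ℚ (LaurentSeries ℚ)}

/-- **T3 (rigidity).** If `h ^ m` (`m > 0`) and the leading coefficient of `h` are fixed by `τ`,
then so is `h`. -/
theorem fixed_of_pow_fixed {m : ℕ} (hm : 0 < m) (τ : Q̄ ≃ₐ[ℚ] Q̄)
    (h : laurentBaseChange Q̄ F₀)
    (hl : arithmeticRingAut F₀ τ (lcK F₀ h) = lcK F₀ h)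
    (hp : arithmeticRingAut F₀ τ (h ^ m) = h ^ m) :
    arithmeticRingAut F₀ τ h = h := by
  rcases eq_or_ne h 0 with rfl | h0
  · simp
  have e1 : (arithmeticRingAut F₀ τ h / h) ^ m = 1 := by
    rw [div_pow, ← map_pow, hp, div_self (pow_ne_zero m h0)]
  have e2 : lcK F₀ (arithmeticRingAut F₀ τ h / h) = 1 := by
    rw [map_div₀, lcK_act, hl, div_self (lcK_ne_zero h0)]
  have e3 := eq_one_of_pow_eq_one hm _ e1 e2
  rwa [div_eq_one_iff_eq h0] at e3

/-- **T1, normalised form.** If `f ≠ 0` and `τ f = h_τ ^ m · f` with `h_τ` of leading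
coefficient `1` for all `τ ∈ G`, then `b ^ m · f` is `G`-fixed for some `b ≠ 0`. -/
theorem exists_fixed_rep_normalised (G : Subgroup (Q̄ ≃ₐ[ℚ] Q̄)) (m : ℕ)
    (f : laurentBaseChange Q̄ F₀) (hf : f ≠ 0)
    (hcoc : ∀ τ ∈ G, ∃ h : laurentBaseChange Q̄ F₀,
      lcK F₀ h = 1 ∧ arithmeticRingAut F₀ τ f = h ^ m * f) :
    ∃ b : laurentBaseChange Q̄ F₀, b ≠ 0 ∧
      ∀ τ ∈ G, arithmeticRingAut F₀ τ (b ^ m * f) = b ^ m * f := by
  obtain ⟨b, hb, hfix⟩ := poincareDescent (G := G)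
    (fun τ => arithmeticRingAut F₀ (τ : Q̄ ≃ₐ[ℚ] Q̄))
    (fun σ τ x => act_mul (σ : Q̄ ≃ₐ[ℚ] Q̄) τ x)
    (lcK F₀) (fun σ x => lcK_act (σ : Q̄ ≃ₐ[ℚ] Q̄) x) m
    (fun hm x => eq_one_of_pow_eq_one hm x) f hf (orbit_finite_subgroup G f)
    (fun τ => hcoc τ τ.2)
  exact ⟨b, hb, fun τ hτ => hfix ⟨τ, hτ⟩⟩

/-- **T1, `lcK` form.** Let `f ≠ 0` in `K` and `G ≤ Gal(Q̄/ℚ)` be such that for every `τ ∈ G`
the function `τ f / f` is a constant times an `m`-th power.  Then `(lcK f)⁻¹ · b ^ m · f` is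
fixed by `G` for a suitable `b ≠ 0`. -/
theorem exists_fixed_rep_lcK (G : Subgroup (Q̄ ≃ₐ[ℚ] Q̄)) (m : ℕ)
    (f : laurentBaseChange Q̄ F₀) (hf : f ≠ 0)
    (hcoc : ∀ τ ∈ G, ∃ c : Q̄, c ≠ 0 ∧ ∃ h : laurentBaseChange Q̄ F₀, h ≠ 0 ∧
      arithmeticRingAut F₀ τ f = algebraMap Q̄ (laurentBaseChange Q̄ F₀) c * h ^ m * f) :
    ∃ b : laurentBaseChange Q̄ F₀, b ≠ 0 ∧
      ∀ τ ∈ G, arithmeticRingAut F₀ τ ((lcK F₀ f)⁻¹ * b ^ m * f)
        = (lcK F₀ f)⁻¹ * b ^ m * f := by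
  obtain ⟨b, hb, hfix⟩ := poincareDescent' (G := G)
    (fun τ => arithmeticRingAut F₀ (τ : Q̄ ≃ₐ[ℚ] Q̄))
    (fun σ τ x => act_mul (σ : Q̄ ≃ₐ[ℚ] Q̄) τ x)
    (lcK F₀) (fun σ x => lcK_act (σ : Q̄ ≃ₐ[ℚ] Q̄) x) lcK_lcK (fun x hx => lcK_ne_zero hx) m
    (fun hm x => eq_one_of_pow_eq_one hm x) (fun x => orbit_finite_subgroup G x) f hf
    (fun τ => by
      obtain ⟨c, -, h, hh, e⟩ := hcoc τ τ.2
      exact ⟨algebraMap Q̄ (laurentBaseChange Q̄ F₀) c, h, lcK_algebraMap c, hh, e⟩)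
  exact ⟨b, hb, fun τ hτ => hfix ⟨τ, hτ⟩⟩

/-- **T1.** Let `f ≠ 0` in `K` and `G ≤ Gal(Q̄/ℚ)` be such that for every `τ ∈ G` the function
`τ f / f` is a constant times an `m`-th power.  Then there are a constant `a ≠ 0` and `b ≠ 0`
in `K` such that `a · b ^ m · f` is fixed by `G`. -/
theorem exists_fixed_rep (G : Subgroup (Q̄ ≃ₐ[ℚ] Q̄)) (m : ℕ)
    (f : laurentBaseChange Q̄ F₀) (hf : f ≠ 0)
    (hcoc : ∀ τ ∈ G, ∃ c : Q̄, c ≠ 0 ∧ ∃ h : laurentBaseChange Q̄ F₀, h ≠ 0 ∧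
      arithmeticRingAut F₀ τ f = algebraMap Q̄ (laurentBaseChange Q̄ F₀) c * h ^ m * f) :
    ∃ a : Q̄, a ≠ 0 ∧ ∃ b : laurentBaseChange Q̄ F₀, b ≠ 0 ∧
      ∀ τ ∈ G, arithmeticRingAut F₀ τ (algebraMap Q̄ (laurentBaseChange Q̄ F₀) a * b ^ m * f)
        = algebraMap Q̄ (laurentBaseChange Q̄ F₀) a * b ^ m * f := by
  obtain ⟨b, hb, hfix⟩ := exists_fixed_rep_lcK G m f hf hcoc
  have hlf : (f : LaurentSeries Q̄).leadingCoeff ≠ 0 :=
    HahnSeries.leadingCoeff_ne_zero.2 fun h => hf (Subtype.ext h)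
  refine ⟨((f : LaurentSeries Q̄).leadingCoeff)⁻¹, inv_ne_zero hlf, b, hb, ?_⟩
  have e : algebraMap Q̄ (laurentBaseChange Q̄ F₀) ((f : LaurentSeries Q̄).leadingCoeff)⁻¹
      = (lcK F₀ f)⁻¹ := by
    rw [lcK_apply, map_inv₀]
  rw [e]
  exact hfix

/-- A fixed element has fixed coefficients. -/
theorem coeff_fixed_of_fixed (τ : Q̄ ≃ₐ[ℚ] Q̄) (f : laurentBaseChange Q̄ F₀)
    (h : arithmeticRingAut F₀ τ f = f) (n : ℤ) :
    τ ((f : LaurentSeries Q̄).coeff n) = (f : LaurentSeries Q̄).coeff n := by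
  have := congrArg (fun x : laurentBaseChange Q̄ F₀ => (x : LaurentSeries Q̄).coeff n) h
  simpa using this

end Descent

end Fermat.Agent.S36.H756
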