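import Mathlib
import Fermat.Prelude.Def_AlgebraicCurve_BaseChangeGalois
import Fermat.Prelude.Def_ModularCurve_ArithmeticGalois
import Fermat.Agent.S36.H756.Desc

/-!
# S36 engine, leaf DESC (owner helper756) — Picard form

* `exists_kummer_data` : an `m`-torsion class `x ∈ Pic0 K F` is `[D]` with `m D = div f`.
* `kummer_cocycle_of_fixed` : if moreover `g • x = x` for a semilinear automorphism `g` (and
  functions without zeros and poles are constant), then `g f = c · h ^ m · f`.
* `exists_fixed_kummer_rep` (**T2**) : for `F = laurentBaseChange Q̄ F₀`, an `m`-torsion class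
  fixed by a subgroup `G ≤ Gal(Q̄/ℚ)` is `[D]` with `m D = div f` and `f` fixed by `G`.
* `JZero.exists_fixed_kummer_rep` : the same for `JZero N`.
-/

set_option autoImplicit false

noncomputable section

namespace Fermat.Agent.S36.H756

open AlgebraicCurve ModularCurve

local notation "Q̄" => AlgebraicClosure ℚ

section Generic

variable {K F : Type*} [Field K] [Field F] [Algebra K F]

variable (K F) in
/-- A function without zeros and poles is a constant. -/
def ConstOfOrdZero : Prop :=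
  ∀ u : F, u ≠ 0 → (∀ v : Place K F, v.ord u = 0) → ∃ c : K, algebraMap K F c = u

theorem ord_const_eq_zero (v : Place K F) (c : K) : v.ord (algebraMap K F c) = 0 := by
  rcases eq_or_ne c 0 with rfl | hc
  · simp
  have h1 : algebraMap K F c ∈ v.toValuationSubring := v.algebraMap_mem' c
  have h2 : algebraMap K F c⁻¹ ∈ v.toValuationSubring := v.algebraMap_mem' c⁻¹
  have hu : IsUnit (⟨algebraMap K F c, h1⟩ : v.toValuationSubring) := by
    refine IsUnit.of_mul_eq_one (⟨algebraMap K F c⁻¹, h2⟩ : v.toValuationSubring) ?_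
    ext
    show algebraMap K F c * algebraMap K F c⁻¹ = 1
    rw [← map_mul, mul_inv_cancel₀ hc, map_one]
  exact v.ord_coe_unit hu.unit

theorem ord_toRingAut (g : SemilinearAut K F) (w : Place K F) (f : F) :
    w.ord (SemilinearAut.toRingAut g f) = (g⁻¹ • w).ord f := by
  have h := SemilinearAut.ord_smul g (g⁻¹ • w) f
  rw [smul_inv_smul] at h
  exact h

theorem ord_npow (v : Place K F) (y : F) (m : ℕ) : v.ord (y ^ m) = m * v.ord y := by
  have := v.ord_zpow y (m : ℤ)
  simpa using this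

/-- An `m`-torsion class is the class of a divisor `D` with `m D = div f`. -/
theorem exists_kummer_data (m : ℕ) (x : Pic0 K F) (hx : m • x = 0) :
    ∃ (D : Divisor.degZero (K := K) (F := F)) (f : F), f ≠ 0 ∧ Pic0.mk D = x ∧
      ∀ v : Place K F, v.ord f = (m : ℤ) * (D : Divisor K F) v := by
  obtain ⟨D, rfl⟩ := Pic0.mk_surjective x
  have hprin : ((m • D : Divisor.degZero (K := K) (F := F)) : Divisor K F) ∈
      Divisor.principal (K := K) (F := F) := by
    have h0 : Pic0.mk (m • D) = 0 := hx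
    have := (QuotientAddGroup.eq_zero_iff (m • D)).1 h0
    simpa [AddSubgroup.mem_addSubgroupOf] using this
  obtain ⟨f, hf, hfD⟩ := hprin
  refine ⟨D, f, hf, rfl, fun v => ?_⟩
  rw [← hfD v]
  simp [Finsupp.smul_apply]

/-- The Kummer cocycle of a fixed class: `g f = c · h ^ m · f`. -/
theorem kummer_cocycle_of_fixed (hconst : ConstOfOrdZero K F) (m : ℕ)
    (D : Divisor.degZero (K := K) (F := F)) (f : F) (hf : f ≠ 0)
    (hfD : ∀ v : Place K F, v.ord f = (m : ℤ) * (D : Divisor K F) v)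
    (g : SemilinearAut K F) (hg : g • Pic0.mk D = Pic0.mk D) :
    ∃ c : K, c ≠ 0 ∧ ∃ h : F, h ≠ 0 ∧
      SemilinearAut.toRingAut g f = algebraMap K F c * h ^ m * f := by
  -- `g D - D = div h`
  have h0 : Pic0.mk (SemilinearAut.degZeroSMulHom g D - D) = 0 := by
    rw [SemilinearAut.pic0_smul_mk] at hg
    have : Pic0.mk (SemilinearAut.degZeroSMulHom g D - D)
        = Pic0.mk (SemilinearAut.degZeroSMulHom g D) - Pic0.mk D := rfl
    rw [this, hg, sub_self]
  have hprin := (QuotientAddGroup.eq_zero_iff (SemilinearAut.degZeroSMulHom g D - D)).1 h0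
  rw [AddSubgroup.mem_addSubgroupOf] at hprin
  obtain ⟨h, hh, hhD⟩ := hprin
  have hhD' : ∀ w : Place K F,
      w.ord h = (D : Divisor K F) (g⁻¹ • w) - (D : Divisor K F) w := by
    intro w
    rw [← hhD w]
    simp only [AddSubgroupClass.coe_sub, SemilinearAut.coe_degZeroSMulHom,
      Finsupp.sub_apply, SemilinearAut.divisor_smul_apply]
  have hgf : SemilinearAut.toRingAut g f ≠ 0 := by simpa using hf
  have hden : h ^ m * f ≠ 0 := mul_ne_zero (pow_ne_zero m hh) hf
  -- the quotient has trivial divisor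
  have hu0 : SemilinearAut.toRingAut g f * (h ^ m * f)⁻¹ ≠ 0 :=
    mul_ne_zero hgf (inv_ne_zero hden)
  have hord : ∀ w : Place K F, w.ord (SemilinearAut.toRingAut g f * (h ^ m * f)⁻¹) = 0 := by
    intro w
    rw [w.ord_mul hgf (inv_ne_zero hden), w.ord_inv, w.ord_mul (pow_ne_zero m hh) hf,
      ord_npow, ord_toRingAut, hfD, hfD, hhD']
    ring
  obtain ⟨c, hc⟩ := hconst _ hu0 hord
  have hc0 : c ≠ 0 := by
    rintro rfl
    rw [map_zero] at hc
    exact hu0 hc.symm
  refine ⟨c, hc0, h, hh, ?_⟩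
  rw [mul_assoc, hc, mul_assoc, inv_mul_cancel₀ hden, mul_one]

end Generic

section Modular

variable {F₀ : IntermediateField ℚ (LaurentSeries ℚ)}

/-- **T2.** An `m`-torsion class of `Pic0` of `laurentBaseChange Q̄ F₀` which is fixed by a
subgroup `G` of `Gal(Q̄/ℚ)` is the class of a divisor `D` with `m D = div f` for a function
`f` fixed by `G`. -/
theorem exists_fixed_kummer_rep
    [HasPrincipalDivisors Q̄ (laurentBaseChange Q̄ F₀)]
    (hconst : ConstOfOrdZero Q̄ (laurentBaseChange Q̄ F₀))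
    (G : Subgroup (Q̄ ≃ₐ[ℚ] Q̄)) (m : ℕ)
    (x : Pic0 Q̄ (laurentBaseChange Q̄ F₀)) (hx : m • x = 0)
    (hG : ∀ τ ∈ G, τ • x = x) :
    ∃ (D : Divisor.degZero (K := Q̄) (F := laurentBaseChange Q̄ F₀))
      (f : laurentBaseChange Q̄ F₀), f ≠ 0 ∧ Pic0.mk D = x ∧
      (∀ v : Place Q̄ (laurentBaseChange Q̄ F₀),
        v.ord f = (m : ℤ) * (D : Divisor Q̄ (laurentBaseChange Q̄ F₀)) v) ∧
      ∀ τ ∈ G, arithmeticRingAut F₀ τ f = f := by
  obtain ⟨D, f, hf, rfl, hfD⟩ := exists_kummer_data m x hx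
  have hcoc : ∀ τ ∈ G, ∃ c : Q̄, c ≠ 0 ∧ ∃ h : laurentBaseChange Q̄ F₀, h ≠ 0 ∧
      arithmeticRingAut F₀ τ f = algebraMap Q̄ (laurentBaseChange Q̄ F₀) c * h ^ m * f := by
    intro τ hτ
    exact kummer_cocycle_of_fixed hconst m D f hf hfD (arithmeticGalois F₀ τ) (hG τ hτ)
  obtain ⟨a, ha, b, hb, hfix⟩ := exists_fixed_rep G m f hf hcoc
  -- the divisor of `b`
  obtain ⟨B, hB, hB0⟩ := HasPrincipalDivisors.exists_divisor (K := Q̄) b hb
  let B' : Divisor.degZero (K := Q̄) (F := laurentBaseChange Q̄ F₀) := ⟨B, hB0⟩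
  have haK : algebraMap Q̄ (laurentBaseChange Q̄ F₀) a ≠ 0 := by simpa using ha
  refine ⟨D + B', algebraMap Q̄ (laurentBaseChange Q̄ F₀) a * b ^ m * f,
    mul_ne_zero (mul_ne_zero haK (pow_ne_zero m hb)) hf, ?_, fun v => ?_, hfix⟩
  · rw [Pic0.mk_add]
    have : Pic0.mk B' = 0 := by
      refine (QuotientAddGroup.eq_zero_iff B').2 ?_
      rw [AddSubgroup.mem_addSubgroupOf]
      exact ⟨b, hb, hB⟩
    rw [this, add_zero]
  · rw [v.ord_mul (mul_ne_zero haK (pow_ne_zero m hb)) hf, v.ord_mul haK (pow_ne_zero m hb),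
      ord_const_eq_zero, zero_add, ord_npow, hfD]
    show _ = (m : ℤ) * ((D : Divisor Q̄ (laurentBaseChange Q̄ F₀)) v + B v)
    rw [hB v]
    ring

end Modular

end Fermat.Agent.S36.H756
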