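import Mathlib
import Fermat.Prelude.Def_ModularCurve_LaurentCoeff

/-!
# S36 engine, leaf DESC (owner helper756) — `laurentBaseChange L F₀` is the `L`-span of `F₀`

For a field `L` algebraic over `ℚ`, the compositum `L · F₀ ⊆ L((q))` is the `L`-linear span of
(the image of) `F₀` : `mem_span_coeffEmb`.
-/

set_option autoImplicit false

noncomputable section

namespace Fermat.Agent.S36.H756

open ModularCurve HahnSeries IntermediateField

section Span

variable {L : Type*} [Field L] [Algebra ℚ L]
variable (F₀ : IntermediateField ℚ (LaurentSeries ℚ))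

/-- The image of `F₀` in `L((q))`. -/
def imgF₀ (L : Type*) [Field L] [Algebra ℚ L] (F₀ : IntermediateField ℚ (LaurentSeries ℚ)) :
    Set (LaurentSeries L) :=
  ⇑(coeffEmb L) '' (F₀ : Set (LaurentSeries ℚ))

variable {F₀}

omit [Algebra ℚ L] in
/-- Scalar multiplication by a constant is multiplication by the constant series. -/
theorem smul_eq_algebraMap_mul (a : L) (y : LaurentSeries L) :
    a • y = algebraMap L (LaurentSeries L) a * y := by
  rw [algebraMap_laurentSeries_eq_single]
  ext n
  simp

theorem one_mem_imgF₀ : (1 : LaurentSeries L) ∈ imgF₀ L F₀ :=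
  ⟨1, F₀.one_mem, map_one _⟩

theorem mul_mem_imgF₀ {x y : LaurentSeries L} (hx : x ∈ imgF₀ L F₀) (hy : y ∈ imgF₀ L F₀) :
    x * y ∈ imgF₀ L F₀ := by
  obtain ⟨a, ha, rfl⟩ := hx
  obtain ⟨b, hb, rfl⟩ := hy
  exact ⟨a * b, F₀.mul_mem ha hb, map_mul _ _ _⟩

/-- The span of `F₀` is stable under multiplication by elements of `F₀`. -/
theorem mul_mem_span_imgF₀ {u x : LaurentSeries L} (hu : u ∈ imgF₀ L F₀)
    (hx : x ∈ Submodule.span L (imgF₀ L F₀)) : u * x ∈ Submodule.span L (imgF₀ L F₀) := by
  induction hx using Submodule.span_induction with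
  | mem y hy => exact Submodule.subset_span (mul_mem_imgF₀ hu hy)
  | zero => simp
  | add y z _ _ hy hz =>
      rw [mul_add]
      exact Submodule.add_mem _ hy hz
  | smul a y _ hy =>
      have : u * (a • y) = a • (u * y) := by
        rw [smul_eq_algebraMap_mul, smul_eq_algebraMap_mul]
        ring
      rw [this]
      exact Submodule.smul_mem _ a hy

variable [Algebra.IsAlgebraic ℚ L]

/-- **Span lemma.** The compositum `L · F₀` inside `L((q))` is the `L`-span of `F₀`. -/
theorem mem_span_coeffEmb {x : LaurentSeries L} (hx : x ∈ laurentBaseChange L F₀) :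
    x ∈ Submodule.span L (imgF₀ L F₀) := by
  let algF : Algebra F₀ (LaurentSeries L) :=
    ((coeffEmb L).comp (algebraMap F₀ (LaurentSeries ℚ))).toAlgebra
  have hmap : ∀ a : F₀, algebraMap F₀ (LaurentSeries L) a = coeffEmb L (a : LaurentSeries ℚ) :=
    fun _ => rfl
  set S : Set (LaurentSeries L) := Set.range (algebraMap L (LaurentSeries L)) with hS
  have halg : ∀ y ∈ S, IsAlgebraic F₀ y := by
    rintro _ ⟨e, rfl⟩
    obtain ⟨p, hp0, hp⟩ : IsAlgebraic ℚ e := Algebra.IsAlgebraic.isAlgebraic e
    refine ⟨p.map (algebraMap ℚ F₀), ?_, ?_⟩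
    · exact (Polynomial.map_ne_zero_iff (algebraMap ℚ F₀).injective).2 hp0
    · rw [Polynomial.aeval_def, Polynomial.eval₂_map]
      have hcomp : (algebraMap F₀ (LaurentSeries L)).comp (algebraMap ℚ F₀)
          = (algebraMap L (LaurentSeries L)).comp (algebraMap ℚ L) := Subsingleton.elim _ _
      rw [hcomp, ← Polynomial.hom_eval₂, ← Polynomial.aeval_def, hp, map_zero]
  have hW : (IntermediateField.adjoin F₀ S).toSubalgebra = Algebra.adjoin F₀ S :=
    IntermediateField.adjoin_toSubalgebra_of_isAlgebraic halg
  have hxW : x ∈ IntermediateField.adjoin F₀ S := by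
    rw [mem_laurentBaseChange_iff] at hx
    have hle : Subfield.closure
        (Set.range (algebraMap L (LaurentSeries L)) ∪
          (⇑(coeffEmb L) '' (F₀ : Set (LaurentSeries ℚ))))
        ≤ (IntermediateField.adjoin F₀ S).toSubfield := by
      rw [Subfield.closure_le]
      rintro y (hy | ⟨a, ha, rfl⟩)
      · exact IntermediateField.subset_adjoin F₀ S hy
      · exact (IntermediateField.adjoin F₀ S).algebraMap_mem ⟨a, ha⟩
    exact hle hx
  have hx2 : x ∈ Algebra.adjoin F₀ S := by
    rw [← hW]
    exact hxW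
  rw [← Subalgebra.mem_toSubmodule, Algebra.adjoin_eq_span] at hx2
  have hclos : (Submonoid.closure S : Set (LaurentSeries L)) = S := by
    have : S = ((MonoidHom.mrange (algebraMap L (LaurentSeries L) : L →* LaurentSeries L) :
        Submonoid (LaurentSeries L)) : Set (LaurentSeries L)) := by
      rw [MonoidHom.coe_mrange]
      rfl
    rw [this, Submonoid.closure_eq]
  rw [hclos] at hx2
  clear hxW hx
  induction hx2 using Submodule.span_induction with
  | mem y hy =>
      obtain ⟨e, rfl⟩ := hy
      have : algebraMap L (LaurentSeries L) e = e • (1 : LaurentSeries L) := by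
        rw [smul_eq_algebraMap_mul, mul_one]
      rw [this]
      exact Submodule.smul_mem _ e (Submodule.subset_span one_mem_imgF₀)
  | zero => simp
  | add y z _ _ hy hz => exact Submodule.add_mem _ hy hz
  | smul a y _ hy =>
      have : a • y = coeffEmb L (a : LaurentSeries ℚ) * y := by
        rw [Algebra.smul_def, hmap]
      rw [this]
      exact mul_mem_span_imgF₀ ⟨a, a.2, rfl⟩ hy

end Span

end Fermat.Agent.S36.H756
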