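import Mathlib
import Fermat.Prelude.Def_ModularCurve_ArithmeticGalois
import Fermat.Agent.S18.H602.Descent
import Fermat.Agent.S36.H756.DescSpan

/-!
# S36 engine, leaf DESC (owner helper756) — descent to the fixed field

**T4** `descendsTo_fixedField` : an element of `laurentBaseChange Q̄ F₀` which is fixed by a
subgroup `G ≤ Gal(Q̄/ℚ)` is defined over the fixed field `Q̄^G`, i.e. comes from
`laurentBaseChange (fixedField G) F₀`  (`DescendsTo` = `Fermat.Agent.S18.H602.DescendsTo`).

Proof: write `f = Σ l_u • u` with `u ∈ F₀` linearly independent over `Q̄`; then `τ f = f` forces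
`τ l_u = l_u`.
-/

set_option autoImplicit false

noncomputable section

namespace Fermat.Agent.S36.H756

open ModularCurve HahnSeries IntermediateField
open Fermat.Agent.S18.H602 (DescendsTo)

local notation "Q̄" => AlgebraicClosure ℚ

variable {F₀ : IntermediateField ℚ (LaurentSeries ℚ)}

theorem coeffMap_smul_of_mem_imgF₀ (τ : Q̄ ≃ₐ[ℚ] Q̄) (a : Q̄) {u : LaurentSeries Q̄}
    (hu : u ∈ imgF₀ Q̄ F₀) : coeffMap (τ : Q̄ →+* Q̄) (a • u) = τ a • u := by
  obtain ⟨u₀, -, rfl⟩ := hu
  rw [smul_eq_algebraMap_mul, smul_eq_algebraMap_mul, map_mul, coeffMap_algebraMap,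
    coeffMap_coeffEmb]
  rfl

/-- **T4.** A `G`-fixed element of `laurentBaseChange Q̄ F₀` is defined over the fixed field of
`G`. -/
theorem descendsTo_fixedField (G : Subgroup (Q̄ ≃ₐ[ℚ] Q̄)) {f : LaurentSeries Q̄}
    (hf : f ∈ laurentBaseChange Q̄ F₀) (hfix : ∀ τ ∈ G, coeffMap (τ : Q̄ →+* Q̄) f = f) :
    DescendsTo F₀ (IntermediateField.fixedField G) f := by
  classical
  have : Algebra.IsAlgebraic ℚ Q̄ := Fermat.Agent.S18.H602.isAlgebraic_Qbar
  obtain ⟨b, hbs, hspan, hli⟩ := exists_linearIndependent Q̄ (imgF₀ Q̄ F₀)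
  have hfb : f ∈ Submodule.span Q̄ b := by
    rw [hspan]
    exact mem_span_coeffEmb hf
  obtain ⟨l, hl⟩ := (Finsupp.mem_span_iff_linearCombination Q̄ b f).1 hfb
  -- the coefficients are fixed
  have hfixl : ∀ τ ∈ G, ∀ u : b, τ (l u) = l u := by
    intro τ hτ u
    have h1 : Finsupp.linearCombination Q̄ (Subtype.val : b → LaurentSeries Q̄)
        (l.mapRange τ (map_zero τ)) = f := by
      calc Finsupp.linearCombination Q̄ (Subtype.val : b → LaurentSeries Q̄)
            (l.mapRange τ (map_zero τ))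
          = (l.mapRange τ (map_zero τ)).sum (fun i a => a • (i : LaurentSeries Q̄)) :=
            Finsupp.linearCombination_apply Q̄ _
        _ = l.sum (fun i a => τ a • (i : LaurentSeries Q̄)) :=
            Finsupp.sum_mapRange_index (h := fun (i : b) (a : Q̄) => a • (i : LaurentSeries Q̄))
              (fun i => zero_smul _ _)
        _ = l.sum (fun i a => coeffMap (τ : Q̄ →+* Q̄) (a • (i : LaurentSeries Q̄))) :=
            Finsupp.sum_congr fun i _ => (coeffMap_smul_of_mem_imgF₀ τ (l i) (hbs i.2)).symm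
        _ = coeffMap (τ : Q̄ →+* Q̄) (l.sum (fun i a => a • (i : LaurentSeries Q̄))) :=
            (map_finsuppSum _ _ _).symm
        _ = coeffMap (τ : Q̄ →+* Q̄) f := by rw [← Finsupp.linearCombination_apply, hl]
        _ = f := hfix τ hτ
    have h3 := hli (h1.trans hl.symm)
    have h4 := DFunLike.congr_fun h3 u
    simpa using h4
  have hmem : ∀ u : b, l u ∈ IntermediateField.fixedField G := fun u =>
    (IntermediateField.mem_fixedField_iff G (l u)).2 fun τ hτ => hfixl τ hτ u
  -- preimages in `F₀`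
  have hpre : ∀ u : b, ∃ u₀ : LaurentSeries ℚ, u₀ ∈ F₀ ∧ coeffEmb Q̄ u₀ = (u : LaurentSeries Q̄) :=
    fun u => hbs u.2
  choose u₀ hu₀ hu₀' using hpre
  set E : IntermediateField ℚ Q̄ := IntermediateField.fixedField G with hE
  refine ⟨∑ u ∈ l.support, algebraMap E (LaurentSeries E) ⟨l u, hmem u⟩ * coeffEmb E (u₀ u),
    ?_, ?_⟩
  · refine sum_mem fun u _ => mul_mem ?_ ?_
    · exact (laurentBaseChange E F₀).algebraMap_mem _
    · exact coeffEmb_mem_laurentBaseChange E (hu₀ u)
  · rw [map_sum, ← hl, Finsupp.linearCombination_apply, Finsupp.sum]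
    refine Finset.sum_congr rfl fun u _ => ?_
    rw [map_mul, Fermat.Agent.S18.H602.coeffMap_algebraMap',
      Fermat.Agent.S18.H602.coeffMap_coeffEmb', hu₀', smul_eq_algebraMap_mul]
    rfl

/-- **T4**, for elements of `K = laurentBaseChange Q̄ F₀`. -/
theorem descendsTo_fixedField_of_fixed (G : Subgroup (Q̄ ≃ₐ[ℚ] Q̄))
    (f : laurentBaseChange Q̄ F₀) (hfix : ∀ τ ∈ G, arithmeticRingAut F₀ τ f = f) :
    DescendsTo F₀ (IntermediateField.fixedField G) (f : LaurentSeries Q̄) :=
  descendsTo_fixedField G f.2 fun τ hτ => congrArg Subtype.val (hfix τ hτ)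

end Fermat.Agent.S36.H756
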