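import Mathlib
import Fermat.Agent.S36.H756.Desc
import Fermat.Agent.S36.H756.DescField
import Fermat.Agent.A2.T1.H669.Embed

/-!
# S36 engine, cell DESC-WIRE (owner helper756) — generic lemmas

`G ≤ Gal(Q̄/ℚ)` any subgroup, `E = fixedField G`, `F_E = laurentBaseChange E F₀`,
`F̄ = laurentBaseChange Q̄ F₀`, `ι = A2.T1.H669.iota E F₀ : F_E → F̄`.

* `act_iota` : elements of `ι F_E` are `G`-fixed.
* `exists_iota_eq_of_fixed` : `G`-fixed elements of `F̄` lie in `ι F_E` (T4).
* `descend_const_mul_pow` : if `ι g = c · H ^ m` (`c ∈ Q̄ˣ`, `H ∈ F̄ˣ`, `m > 0`) then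
  `g = c₁ · h ^ m` with `c₁ ∈ Eˣ`, `h ∈ F_Eˣ`.
* `pow_primePow_of_pow` : `f ^ C = w ^ (p ^ n)`, `C ≠ 0` ⟹ `f ^ (p ^ v_p(C))` is a `p ^ n`-th
  power.
-/

set_option autoImplicit false
set_option synthInstance.maxHeartbeats 400000
set_option maxHeartbeats 1600000

noncomputable section

namespace Fermat.Agent.S36.H756

open ModularCurve HahnSeries IntermediateField
open Fermat.Agent.S18.H602 (DescendsTo)
open Fermat.Agent.A2.T1.H669 (iota)

local notation "Q̄" => AlgebraicClosure ℚ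

section Iota

variable {F₀ : IntermediateField ℚ (LaurentSeries ℚ)} (G : Subgroup (Q̄ ≃ₐ[ℚ] Q̄))

/-- Elements defined over the fixed field are fixed. -/
theorem act_iota {τ : Q̄ ≃ₐ[ℚ] Q̄} (hτ : τ ∈ G)
    (x : laurentBaseChange (IntermediateField.fixedField G) F₀) :
    arithmeticRingAut F₀ τ (iota (IntermediateField.fixedField G) F₀ x)
      = iota (IntermediateField.fixedField G) F₀ x := by
  apply Subtype.ext
  show coeffMap (τ : Q̄ →+* Q̄) (coeffMap (algebraMap (IntermediateField.fixedField G) Q̄)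
      (x : LaurentSeries (IntermediateField.fixedField G)))
    = coeffMap (algebraMap (IntermediateField.fixedField G) Q̄)
      (x : LaurentSeries (IntermediateField.fixedField G))
  rw [coeffMap_coeffMap]
  refine coeffMap_congr (RingHom.ext fun e => ?_) _
  exact (IntermediateField.mem_fixedField_iff G (e : Q̄)).1 e.2 τ hτ

/-- **T4, `iota` form.** -/
theorem exists_iota_eq_of_fixed (f : laurentBaseChange Q̄ F₀)
    (hfix : ∀ τ ∈ G, arithmeticRingAut F₀ τ f = f) :
    ∃ y : laurentBaseChange (IntermediateField.fixedField G) F₀,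
      iota (IntermediateField.fixedField G) F₀ y = f := by
  obtain ⟨y, hy, hyf⟩ := descendsTo_fixedField_of_fixed G f hfix
  exact ⟨⟨y, hy⟩, Subtype.ext hyf⟩

theorem iota_algebraMap_E (c : IntermediateField.fixedField G) :
    iota (IntermediateField.fixedField G) F₀
        (algebraMap (IntermediateField.fixedField G)
          (laurentBaseChange (IntermediateField.fixedField G) F₀) c)
      = algebraMap Q̄ (laurentBaseChange Q̄ F₀) (c : Q̄) := by
  apply Subtype.ext
  show coeffMap (algebraMap (IntermediateField.fixedField G) Q̄)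
      (algebraMap (IntermediateField.fixedField G)
        (LaurentSeries (IntermediateField.fixedField G)) c)
    = algebraMap Q̄ (LaurentSeries Q̄) (c : Q̄)
  rw [Fermat.Agent.S18.H602.coeffMap_algebraMap']
  rfl

/-- The leading coefficient of `ι g` is (the image of) the leading coefficient of `g`. -/
theorem lcK_iota (g : laurentBaseChange (IntermediateField.fixedField G) F₀) :
    lcK F₀ (iota (IntermediateField.fixedField G) F₀ g)
      = iota (IntermediateField.fixedField G) F₀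
          (algebraMap (IntermediateField.fixedField G)
            (laurentBaseChange (IntermediateField.fixedField G) F₀)
            (g : LaurentSeries (IntermediateField.fixedField G)).leadingCoeff) := by
  rw [iota_algebraMap_E, lcK_apply]
  congr 1
  exact leadingCoeff_coeffMap _ (algebraMap (IntermediateField.fixedField G) Q̄).injective _

/-- **Descent of `constant × m-th power`.** -/
theorem descend_const_mul_pow {m : ℕ} (hm : 0 < m)
    (g : laurentBaseChange (IntermediateField.fixedField G) F₀) (c : Q̄)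
    (H : laurentBaseChange Q̄ F₀) (hc : c ≠ 0) (hH : H ≠ 0)
    (h : iota (IntermediateField.fixedField G) F₀ g
      = algebraMap Q̄ (laurentBaseChange Q̄ F₀) c * H ^ m) :
    ∃ (c₁ : IntermediateField.fixedField G)
      (h₁ : laurentBaseChange (IntermediateField.fixedField G) F₀), c₁ ≠ 0 ∧ h₁ ≠ 0 ∧
      g = algebraMap (IntermediateField.fixedField G)
        (laurentBaseChange (IntermediateField.fixedField G) F₀) c₁ * h₁ ^ m := by
  set ι := iota (IntermediateField.fixedField G) F₀ with hι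
  have hcK : algebraMap Q̄ (laurentBaseChange Q̄ F₀) c ≠ 0 := by simpa using hc
  have hg0 : g ≠ 0 := by
    rintro rfl
    rw [map_zero] at h
    exact mul_ne_zero hcK (pow_ne_zero m hH) h.symm
  have hlH : lcK F₀ H ≠ 0 := lcK_ne_zero hH
  -- the normalised root
  obtain ⟨H₁, hH₁⟩ : ∃ H₁ : laurentBaseChange Q̄ F₀, H₁ = (lcK F₀ H)⁻¹ * H := ⟨_, rfl⟩
  have hH₁0 : H₁ ≠ 0 := by
    rw [hH₁]
    exact mul_ne_zero (inv_ne_zero hlH) hH
  have hlH₁ : lcK F₀ H₁ = 1 := by
    rw [hH₁, map_mul, map_inv₀, lcK_lcK, inv_mul_cancel₀ hlH]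
  -- the constant
  set c₁ : IntermediateField.fixedField G :=
    (g : LaurentSeries (IntermediateField.fixedField G)).leadingCoeff with hc₁
  have hc₁0 : c₁ ≠ 0 := by
    rw [hc₁]
    exact HahnSeries.leadingCoeff_ne_zero.2 fun h0 => hg0 (Subtype.ext h0)
  set C₁ := algebraMap (IntermediateField.fixedField G)
    (laurentBaseChange (IntermediateField.fixedField G) F₀) c₁ with hC₁
  have hC₁0 : C₁ ≠ 0 := by
    rw [hC₁]
    simpa using hc₁0
  have hιC₁0 : ι C₁ ≠ 0 := Fermat.Agent.A2.T1.H669.iota_ne_zero _ F₀ hC₁0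
  have hlc : ι C₁ = algebraMap Q̄ (laurentBaseChange Q̄ F₀) c * (lcK F₀ H) ^ m := by
    have h1 := congrArg (lcK F₀) h
    rw [lcK_iota, map_mul, lcK_algebraMap, map_pow] at h1
    exact h1
  have hpow : H₁ ^ m = ι (C₁⁻¹ * g) := by
    rw [map_mul, map_inv₀, h, hlc, hH₁, mul_pow, inv_pow]
    have : lcK F₀ H ^ m ≠ 0 := pow_ne_zero m hlH
    field_simp
  -- `H₁` is fixed
  have hfix : ∀ τ ∈ G, arithmeticRingAut F₀ τ H₁ = H₁ := by
    intro τ hτ
    refine fixed_of_pow_fixed hm τ H₁ ?_ ?_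
    · rw [hlH₁, map_one]
    · rw [hpow]
      exact act_iota G hτ _
  obtain ⟨h₁, hh₁⟩ := exists_iota_eq_of_fixed G H₁ hfix
  have hh₁0 : h₁ ≠ 0 := by
    rintro rfl
    rw [map_zero] at hh₁
    exact hH₁0 hh₁.symm
  refine ⟨c₁, h₁, hc₁0, hh₁0, ?_⟩
  apply Fermat.Agent.A2.T1.H669.iota_injective _ F₀
  rw [map_mul, map_pow, hh₁, hpow, map_mul, map_inv₀, mul_inv_cancel_left₀ hιC₁0]

end Iota

section Bezout

variable {F : Type*} [Field F]

theorem zpow_pow_comm' (w : F) (m : ℕ) (u : ℤ) : (w ^ m) ^ u = (w ^ u) ^ m := by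
  rw [← zpow_natCast w m, ← zpow_natCast (w ^ u) m, ← zpow_mul, ← zpow_mul, mul_comm]

/-- If `f ^ C` is a `p ^ n`-th power (`C ≠ 0`), then `f ^ (p ^ v_p(C))` is a `p ^ n`-th power. -/
theorem pow_primePow_of_pow {p : ℕ} (hp : p.Prime) {C : ℕ} (hC : C ≠ 0) (n : ℕ) {f w : F}
    (hf : f ≠ 0) (h : f ^ C = w ^ (p ^ n)) :
    ∃ y : F, y ≠ 0 ∧ f ^ (p ^ (C.factorization p)) = y ^ (p ^ n) := by
  obtain ⟨k, hk⟩ : ∃ k, k = C.factorization p := ⟨_, rfl⟩
  rw [← hk]
  obtain ⟨C', hC'⟩ : p ^ k ∣ C := hk ▸ Nat.ordProj_dvd C p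
  have hC'p : ¬ p ∣ C' := by
    have := Nat.not_dvd_ordCompl hp hC
    have e : C / p ^ k = C' := by
      rw [hC', Nat.mul_div_cancel_left _ (pow_pos hp.pos k)]
    rwa [← hk, e] at this
  have hcop : Nat.Coprime C' (p ^ n) :=
    Nat.Coprime.pow_right n ((Nat.Prime.coprime_iff_not_dvd hp).2 hC'p).symm
  obtain ⟨m, hm⟩ : ∃ m, m = p ^ n := ⟨_, rfl⟩
  rw [← hm] at hcop h ⊢
  obtain ⟨u, v, hbez⟩ : ∃ u v : ℤ, (C' : ℤ) * u + (m : ℤ) * v = 1 := by
    refine ⟨Nat.gcdA C' m, Nat.gcdB C' m, ?_⟩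
    have := Nat.gcd_eq_gcd_ab C' m
    rw [hcop.gcd_eq_one] at this
    exact_mod_cast this.symm
  have hm0 : m ≠ 0 := by rw [hm]; exact (pow_pos hp.pos n).ne'
  have hw : w ≠ 0 := by
    rintro rfl
    rw [zero_pow hm0] at h
    exact pow_ne_zero C hf h
  obtain ⟨g, hg⟩ : ∃ g, g = f ^ (p ^ k) := ⟨_, rfl⟩
  rw [← hg]
  have hg0 : g ≠ 0 := by rw [hg]; exact pow_ne_zero _ hf
  have hgC : g ^ C' = w ^ m := by rw [hg, ← pow_mul, ← hC', h]
  refine ⟨w ^ u * g ^ v, mul_ne_zero (zpow_ne_zero u hw) (zpow_ne_zero v hg0), ?_⟩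
  calc g = g ^ (1 : ℤ) := (zpow_one g).symm
    _ = g ^ ((C' : ℤ) * u + (m : ℤ) * v) := by rw [hbez]
    _ = (g ^ C') ^ u * (g ^ m) ^ v := by
        rw [zpow_add₀ hg0, zpow_mul, zpow_mul, zpow_natCast, zpow_natCast]
    _ = (w ^ m) ^ u * (g ^ m) ^ v := by rw [hgC]
    _ = (w ^ u * g ^ v) ^ m := by rw [mul_pow, zpow_pow_comm', zpow_pow_comm']

end Bezout

end Fermat.Agent.S36.H756
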