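import Fermat.Agent.S36.H756.Wire
import Fermat.Agent.A2.Mod.Spec
import Fermat.Agent.S35.G.Spec

/-!
# S36 ENGINE, leaf DESC-PLUG, core (helper756) — no dependency on `S36/Eng`

`qNewInertiaAt_of_levelEngine` is `Fermat.Agent.S36.Eng.DescPlugStatement` (architect helper996,
`S36/Eng/Top.lean`, Spec v1.2) with `Eng.LevelInertiaAt` and `Eng.inertiaFld` UNFOLDED:

the level engine over the inertia field `E = ℚ̄^{I_A}`
(`∃ C > 0, ∀ m > 0, q ∤ m, ∀ y ∈ F_E(M q²)ˣ, m ∣ div y, N_α y, N_β y ∈ E·(F_E(M q))^m →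
 y ^ C ∈ E·(F_E(M q²)ˣ)^m`)
gives helper442's pointwise engine `H442.QNewInertiaAt (M q) q p A` on `J₀(M q²)`.

Wrapper (one line, once `S36/Eng/Top.lean` is on main):
`descPlug : Eng.DescPlugStatement := fun M q p _ _ _ hq _ hp hpq A _ h =>
   H756.qNewInertiaAt_of_levelEngine M q p hq hp hpq A h`.

Proof: the hypothesis at `m = p ^ n` (`q ∤ p ^ n` as `p ≠ q`) is `H756.KummerFixedAtC (M q) q p A`;
`H756.kummerQNewInertiaAt_of_fixedAtC` (DESC + wiring) gives helper36's Kummer form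
`H36.KummerQNewInertiaAt`, and `H36.qNewInertiaAt_of_kummerAt` the point form.
-/

set_option autoImplicit false
set_option linter.style.haveILetI false
set_option linter.unusedSectionVars false
set_option synthInstance.maxHeartbeats 400000
set_option maxHeartbeats 1600000

noncomputable section

namespace Fermat.Agent.S36.H756

open ModularCurve AlgebraicCurve

/-- **The level engine over the inertia field** of `A`, levels `M q` and `M q q`
(= `Eng.LevelInertiaAt (Eng.inertiaFld A) M q`, unfolded). -/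
def LevelEngineAt (M q : ℕ) [NeZero M] [NeZero q] [NeZero (M * q)]
    (A : ValuationSubring Fermat.Agent.A2.Qb) : Prop :=
  ∃ C : ℕ, 0 < C ∧ ∀ m : ℕ, 0 < m → ¬ q ∣ m →
    ∀ y : Fermat.Agent.A2.Mod.FE (IntermediateField.fixedField (A.inertiaSubgroupIn ℚ))
        (M * q * q), y ≠ 0 →
      Fermat.Agent.A2.DivisibleDiv (IntermediateField.fixedField (A.inertiaSubgroupIn ℚ)) m y →
      Fermat.Agent.S35.G.NormPow
        (Fermat.Agent.A2.Mod.αE (IntermediateField.fixedField (A.inertiaSubgroupIn ℚ))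
          (M * q) q) m y →
      Fermat.Agent.S35.G.NormPow
        (Fermat.Agent.A2.Mod.βE (IntermediateField.fixedField (A.inertiaSubgroupIn ℚ))
          (M * q) q) m y →
      ∃ (c : IntermediateField.fixedField (A.inertiaSubgroupIn ℚ))
        (h : Fermat.Agent.A2.Mod.FE (IntermediateField.fixedField (A.inertiaSubgroupIn ℚ))
          (M * q * q)), h ≠ 0 ∧
        y ^ C = algebraMap (IntermediateField.fixedField (A.inertiaSubgroupIn ℚ))
          (Fermat.Agent.A2.Mod.FE (IntermediateField.fixedField (A.inertiaSubgroupIn ℚ))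
            (M * q * q)) c * h ^ m

/-- The level engine over the inertia field, at `p`-power exponents, is `KummerFixedAtC`. -/
theorem kummerFixedAtC_of_levelEngine (M q p : ℕ) [NeZero M] [NeZero q] [NeZero (M * q)]
    (hq : q.Prime) (hp : p.Prime) (hpq : p ≠ q) (A : ValuationSubring Fermat.Agent.A2.Qb)
    (h : LevelEngineAt M q A) : KummerFixedAtC (M * q) q p A := by
  obtain ⟨C, hC, hE⟩ := h
  refine ⟨C, hC.ne', fun n y hy hdiv hα hβ => ?_⟩
  have hm : 0 < p ^ n := pow_pos hp.pos n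
  have hqm : ¬ q ∣ p ^ n := fun hd =>
    hpq ((Nat.prime_dvd_prime_iff_eq hq hp).1 (hq.dvd_of_dvd_pow hd)).symm
  obtain ⟨c₁, h₁, -, -, e₁⟩ := hα
  obtain ⟨c₂, h₂, -, -, e₂⟩ := hβ
  exact hE (p ^ n) hm hqm y hy hdiv ⟨c₁, h₁, e₁⟩ ⟨c₂, h₂, e₂⟩

/-- **DESC-PLUG, core** (= `Eng.DescPlugStatement` with the `Eng` definitions unfolded). -/
theorem qNewInertiaAt_of_levelEngine (M q p : ℕ) [NeZero M] [NeZero q] [NeZero (M * q)]
    (hq : q.Prime) (hp : p.Prime) (hpq : p ≠ q) (A : ValuationSubring Fermat.Agent.A2.Qb)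
    (h : LevelEngineAt M q A) : Fermat.Agent.S36.H442.QNewInertiaAt (M * q) q p A :=
  Fermat.Agent.S36.H36.qNewInertiaAt_of_kummerAt (M * q) q p hp A
    (kummerQNewInertiaAt_of_fixedAtC (M * q) q p hp A
      (kummerFixedAtC_of_levelEngine M q p hq hp hpq A h))

/-- The same with `p ^ k`-kernel form of helper160 (`H160.KernelAt`, unfolded): for `x` of
`p`-power order on `J₀(M q²)`, `α_* x = β_* x = 0` and `x` fixed by `I_A` imply `p ^ k • x = 0`. -/
theorem kernelAt_of_levelEngine (M q p : ℕ) [NeZero M] [NeZero q] [NeZero (M * q)]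
    (hq : q.Prime) (hp : p.Prime) (hpq : p ≠ q) (A : ValuationSubring Fermat.Agent.A2.Qb)
    (h : LevelEngineAt M q A) :
    ∃ k : ℕ, ∀ x : JZero (M * q * q), (∃ n : ℕ, p ^ n • x = 0) →
      Fermat.Agent.S35.H155.IsQNew (M * q) q x →
      (∀ τ ∈ A.inertiaSubgroupIn ℚ, τ • x = x) → p ^ k • x = 0 :=
  qNewInertiaAt_of_levelEngine M q p hq hp hpq A h

end Fermat.Agent.S36.H756

end
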