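import Mathlib
import Fermat.Agent.S36.H756.WireAbs
import Fermat.Agent.S36.H756.DescPic
import Fermat.Agent.S36.H36.KummerAt
import Fermat.Agent.S35.H858.NormBC
import Fermat.Agent.A2.T1.H669.T2

/-!
# S36 engine, cell DESC-WIRE (owner helper756)

The engine `H36.KummerQNewInertiaAt N q p P` (helper36, Kummer form over `Q̄`, with the Galois
action of the inertia group `I_P`) follows from a statement over the **inertia field**
`E = Q̄^{I_P}` in which NO Galois action occurs:

`KummerFixedAtC N q p P` : there is `C ≠ 0` such that for all `n` and all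
`y ∈ F_E(N q)ˣ` (`F_E(X) = laurentBaseChange E (modularFunctionFieldFull X)`) with

* `A2.DivisibleDiv E (p ^ n) y`  (locally `y = unit · h ^ (p ^ n)` at every DVR of `F_E / E`),
* `N_α y = c₁ · h₁ ^ (p ^ n)`, `N_β y = c₂ · h₂ ^ (p ^ n)` with `c_i ∈ Eˣ`, `h_i ∈ F_E(N)ˣ`,

we have `y ^ C = c · z ^ (p ^ n)` for some `c ∈ E`, `z ∈ F_E(N q)ˣ`.

* `kummerQNewInertiaAt_of_fixedAtC : KummerFixedAtC N q p P → H36.KummerQNewInertiaAt N q p P`
  (with `k = v_p(C)`).
* `kummerQNewInertiaNeatStatement_of_fixed`, `newPartInertiaStatement_of_fixed` : the same at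
  the neat levels, down to helper36's `NewPartInertiaStatement`.
-/

set_option autoImplicit false
set_option linter.style.haveILetI false
set_option synthInstance.maxHeartbeats 400000
set_option maxHeartbeats 1600000

noncomputable section

namespace Fermat.Agent.S36.H756

open AlgebraicCurve ModularCurve IntermediateField
open Fermat.Agent.A2.T1.H669 (iota)
open Fermat.Agent.S29.H395 (normAlong)

local notation "Q̄" => AlgebraicClosure ℚ

section NormConst

variable {K F F' : Type*} [Field K] [Field F] [Field F'] [Algebra K F] [Algebra K F']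

/-- The norm of a constant is a constant. -/
theorem normAlong_algebraMap_const (ψ : F →ₐ[K] F') (a : K) :
    ∃ d : ℕ, normAlong ψ (algebraMap K F' a) = algebraMap K F (a ^ d) := by
  letI := algebraAlong ψ
  refine ⟨Module.finrank F F', ?_⟩
  have h1 : algebraMap K F' a = algebraMap F F' (algebraMap K F a) := (ψ.commutes a).symm
  show Algebra.norm F (algebraMap K F' a) = _
  rw [h1, Algebra.norm_algebraMap, map_pow]

end NormConst

/-- **The engine over the inertia field** `E = Q̄^{I_P}` (no Galois action). -/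
def KummerFixedAtC (N q p : ℕ) [NeZero N] [NeZero q] (P : ValuationSubring Q̄) : Prop :=
  ∃ C : ℕ, C ≠ 0 ∧ ∀ (n : ℕ)
    (y : laurentBaseChange (fixedField (P.inertiaSubgroupIn ℚ))
      (modularFunctionFieldFull (N * q))), y ≠ 0 →
    Fermat.Agent.A2.DivisibleDiv (fixedField (P.inertiaSubgroupIn ℚ)) (p ^ n) y →
    (∃ (c : fixedField (P.inertiaSubgroupIn ℚ))
      (h : laurentBaseChange (fixedField (P.inertiaSubgroupIn ℚ)) (modularFunctionFieldFull N)),
      c ≠ 0 ∧ h ≠ 0 ∧
      normAlong (heckeAlphaBar (fixedField (P.inertiaSubgroupIn ℚ)) N q) y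
        = algebraMap (fixedField (P.inertiaSubgroupIn ℚ)) _ c * h ^ (p ^ n)) →
    (∃ (c : fixedField (P.inertiaSubgroupIn ℚ))
      (h : laurentBaseChange (fixedField (P.inertiaSubgroupIn ℚ)) (modularFunctionFieldFull N)),
      c ≠ 0 ∧ h ≠ 0 ∧
      normAlong (heckeBetaBar (fixedField (P.inertiaSubgroupIn ℚ)) N q) y
        = algebraMap (fixedField (P.inertiaSubgroupIn ℚ)) _ c * h ^ (p ^ n)) →
    ∃ (c : fixedField (P.inertiaSubgroupIn ℚ))
      (z : laurentBaseChange (fixedField (P.inertiaSubgroupIn ℚ))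
        (modularFunctionFieldFull (N * q))),
      z ≠ 0 ∧ y ^ C = algebraMap (fixedField (P.inertiaSubgroupIn ℚ)) _ c * z ^ (p ^ n)

/-- **DESC-WIRE.**  The engine over the inertia field implies helper36's Kummer form of the
engine. -/
theorem kummerQNewInertiaAt_of_fixedAtC (N q p : ℕ) [NeZero N] [NeZero q] (hp : p.Prime)
    (P : ValuationSubring Q̄) (hE : KummerFixedAtC N q p P) :
    Fermat.Agent.S36.H36.KummerQNewInertiaAt N q p P := by
  obtain ⟨C, hC, hE⟩ := hE
  refine ⟨C.factorization p, fun n f hf hdiv hα hβ hfix => ?_⟩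
  have hm0 : 0 < p ^ n := pow_pos hp.pos n
  -- Step 1: DESC
  obtain ⟨a, ha, b, hb, hfixed⟩ := exists_fixed_rep (P.inertiaSubgroupIn ℚ) (p ^ n) f hf
    (fun τ hτ => by
      obtain ⟨y, hy, e⟩ := hfix τ hτ
      exact ⟨1, one_ne_zero, y, hy, by rw [map_one, one_mul]; exact e⟩)
  have haK : algebraMap Q̄ (modularFunctionFieldBar (N * q)) a ≠ 0 := by simpa using ha
  have hbm : b ^ (p ^ n) ≠ 0 := pow_ne_zero _ hb
  obtain ⟨y₀, hy₀⟩ := exists_iota_eq_of_fixed (P.inertiaSubgroupIn ℚ) _ hfixed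
  have hy₀0 : y₀ ≠ 0 := by
    rintro rfl
    rw [map_zero] at hy₀
    exact mul_ne_zero (mul_ne_zero haK hbm) hf hy₀.symm
  -- Step 2: divisibility
  have hDD : Fermat.Agent.A2.DivisibleDiv (fixedField (P.inertiaSubgroupIn ℚ)) (p ^ n) y₀ := by
    refine Fermat.Agent.A2.T1.H669.divisibleDiv_of_ord (fixedField (P.inertiaSubgroupIn ℚ))
      (modularFunctionFieldFull (N * q)) (p ^ n) y₀ hy₀0 fun v => ?_
    rw [hy₀, v.ord_mul (mul_ne_zero haK hbm) hf, v.ord_mul haK hbm, ord_const_eq_zero,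
      zero_add, ord_npow]
    exact dvd_add (dvd_mul_right _ _) (hdiv v)
  -- Step 3: the norms
  have hfinα := Fermat.Agent.S29.H812.finiteAlong_heckeAlphaBar N q
  have hfinβ := Fermat.Agent.S29.H812.finiteAlong_heckeBetaBar N q
  have hNα : ∃ (c : fixedField (P.inertiaSubgroupIn ℚ))
      (h : laurentBaseChange (fixedField (P.inertiaSubgroupIn ℚ)) (modularFunctionFieldFull N)),
      c ≠ 0 ∧ h ≠ 0 ∧
      normAlong (heckeAlphaBar (fixedField (P.inertiaSubgroupIn ℚ)) N q) y₀
        = algebraMap (fixedField (P.inertiaSubgroupIn ℚ)) _ c * h ^ (p ^ n) := by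
    obtain ⟨h, hh, e⟩ := hα
    obtain ⟨d, hd⟩ := normAlong_algebraMap_const (heckeAlphaBar Q̄ N q) a
    refine descend_const_mul_pow (P.inertiaSubgroupIn ℚ) hm0 _ (a ^ d)
      (normAlong (heckeAlphaBar Q̄ N q) b * h) (pow_ne_zero d ha)
      (mul_ne_zero (Fermat.Agent.S29.H395.normAlong_ne_zero _ hfinα hb) hh) ?_
    rw [Fermat.Agent.S35.H858.iota_normAlong_alpha (fixedField (P.inertiaSubgroupIn ℚ)) N q
        hfinα y₀, hy₀,
      Fermat.Agent.S29.H395.normAlong_mul, Fermat.Agent.S29.H395.normAlong_mul,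
      Fermat.Agent.S29.H395.normAlong_pow, hd, e, mul_pow, mul_assoc]
  have hNβ : ∃ (c : fixedField (P.inertiaSubgroupIn ℚ))
      (h : laurentBaseChange (fixedField (P.inertiaSubgroupIn ℚ)) (modularFunctionFieldFull N)),
      c ≠ 0 ∧ h ≠ 0 ∧
      normAlong (heckeBetaBar (fixedField (P.inertiaSubgroupIn ℚ)) N q) y₀
        = algebraMap (fixedField (P.inertiaSubgroupIn ℚ)) _ c * h ^ (p ^ n) := by
    obtain ⟨h, hh, e⟩ := hβ
    obtain ⟨d, hd⟩ := normAlong_algebraMap_const (heckeBetaBar Q̄ N q) a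
    refine descend_const_mul_pow (P.inertiaSubgroupIn ℚ) hm0 _ (a ^ d)
      (normAlong (heckeBetaBar Q̄ N q) b * h) (pow_ne_zero d ha)
      (mul_ne_zero (Fermat.Agent.S29.H395.normAlong_ne_zero _ hfinβ hb) hh) ?_
    rw [Fermat.Agent.S35.H858.iota_normAlong_beta (fixedField (P.inertiaSubgroupIn ℚ)) N q
        hfinβ y₀, hy₀,
      Fermat.Agent.S29.H395.normAlong_mul, Fermat.Agent.S29.H395.normAlong_mul,
      Fermat.Agent.S29.H395.normAlong_pow, hd, e, mul_pow, mul_assoc]
  -- Step 4: the engine over `E`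
  obtain ⟨c, z, hz, e⟩ := hE n y₀ hy₀0 hDD hNα hNβ
  have e' : (algebraMap Q̄ (modularFunctionFieldBar (N * q)) a * b ^ (p ^ n) * f) ^ C
      = algebraMap Q̄ (modularFunctionFieldBar (N * q)) (c : Q̄)
        * (iota (fixedField (P.inertiaSubgroupIn ℚ)) (modularFunctionFieldFull (N * q)) z)
          ^ (p ^ n) := by
    rw [← hy₀, ← map_pow, e, map_mul, map_pow, iota_algebraMap_E]
  -- Step 5: back to `f`
  obtain ⟨c'', hc''⟩ := IsAlgClosed.exists_pow_nat_eq ((c : Q̄) / a ^ C) hm0
  have hfC : f ^ C = (algebraMap Q̄ (modularFunctionFieldBar (N * q)) c''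
      * iota (fixedField (P.inertiaSubgroupIn ℚ)) (modularFunctionFieldFull (N * q)) z
      * (b ^ C)⁻¹) ^ (p ^ n) := by
    have haC : algebraMap Q̄ (modularFunctionFieldBar (N * q)) a ^ C ≠ 0 := pow_ne_zero C haK
    have hbC : b ^ C ≠ 0 := pow_ne_zero C hb
    have h1 : algebraMap Q̄ (modularFunctionFieldBar (N * q)) c'' ^ (p ^ n)
        = algebraMap Q̄ (modularFunctionFieldBar (N * q)) (c : Q̄)
          * (algebraMap Q̄ (modularFunctionFieldBar (N * q)) a ^ C)⁻¹ := by
      rw [← map_pow, hc'', map_div₀, map_pow, div_eq_mul_inv]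
    have h2 : f ^ C = (algebraMap Q̄ (modularFunctionFieldBar (N * q)) a ^ C)⁻¹
        * ((b ^ C) ^ (p ^ n))⁻¹
        * (algebraMap Q̄ (modularFunctionFieldBar (N * q)) a * b ^ (p ^ n) * f) ^ C := by
      rw [mul_pow, mul_pow, ← pow_mul b (p ^ n) C, ← pow_mul b C (p ^ n), mul_comm (p ^ n) C]
      have : b ^ (C * p ^ n) ≠ 0 := pow_ne_zero _ hb
      field_simp
    rw [h2, e', mul_pow, mul_pow, h1, inv_pow]
    ring
  exact pow_primePow_of_pow hp hC n hf hfC

/-- The engine over the inertia field, at the neat levels of helper442 / helper36. -/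
def KummerFixedNeatStatement : Prop :=
  ∀ (N q r p : ℕ) [NeZero N] [NeZero q] [NeZero r], q.Prime → N.factorization q = 1 →
    r.Prime → r % 12 = 11 → ¬ r ∣ N * q * p → N * q * p < r → p.Prime → p ≠ q →
    ∀ P : ValuationSubring Q̄, P.LiesOverPrime q →
      (N * r).factorization q = 1 → KummerFixedAtC (N * r) q p P

theorem kummerQNewInertiaNeatStatement_of_fixed (h : KummerFixedNeatStatement) :
    Fermat.Agent.S36.H36.KummerQNewInertiaNeatStatement := by
  intro N q r p _ _ _ hq hfac hr hmod hndvd hB hp hpq P hP hfac'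
  haveI : NeZero (N * r) := ⟨Nat.mul_ne_zero (NeZero.ne N) (NeZero.ne r)⟩
  exact kummerQNewInertiaAt_of_fixedAtC (N * r) q p hp P
    (h N q r p hq hfac hr hmod hndvd hB hp hpq P hP hfac')

/-- **Frozen-chain entry point**: helper36's `NewPartInertiaStatement` from the engine over the
inertia field at neat levels. -/
theorem newPartInertiaStatement_of_fixed (h : KummerFixedNeatStatement) :
    Fermat.Agent.S36.H36.NewPartInertiaStatement :=
  Fermat.Agent.S36.H36.newPartInertiaStatement_of_kummerNeat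
    (kummerQNewInertiaNeatStatement_of_fixed h)

end Fermat.Agent.S36.H756
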